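import Fermat.Agent.Jac.Deg.Sub

/-! # Sections and effective divisors on a curve over a field -/

set_option autoImplicit false
set_option linter.style.haveILetI false
set_option linter.unusedSectionVars false

universe u

open TensorProduct

namespace FLTAgent.Jac

open LineData

variable {k : Type u} [Field k] {M : Model k} {A : Type u} [CommRing A] [Algebra k A]

theorem swap_range_diff (L : LineData M A) :
    LinearMap.range L.swap.diff = LinearMap.range L.diff := by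
  ext n
  constructor
  · rintro ⟨⟨b, a⟩, rfl⟩
    refine ⟨(-a, -b), ?_⟩
    show L.ρp (-a) - L.ρm (-b) = L.ρm b - L.ρp a
    rw [map_neg, map_neg]; abel
  · rintro ⟨⟨a, b⟩, rfl⟩
    refine ⟨(-b, -a), ?_⟩
    show L.ρm (-b) - L.ρp (-a) = L.ρp a - L.ρm b
    rw [map_neg, map_neg]; abel

theorem acyclic_swap_iff (L : LineData M A) : L.swap.Acyclic ↔ L.Acyclic := by
  rw [Acyclic, Acyclic, ← LinearMap.range_eq_top, ← LinearMap.range_eq_top, swap_range_diff]

theorem isSubm_acyclic {L L' : LineData M A} {J : Ideal (M.Am A)} {r : ℕ}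
    (hJ : IsDivDeg (M := M.swap) J r) (h : IsSubm L L' J) (h' : L'.Acyclic) : L.Acyclic :=
  (acyclic_swap_iff L).1 (isSub_acyclic hJ (toSwap_isSub h) ((acyclic_swap_iff L').2 h'))

theorem isSub_twist {L L' : LineData M A} {I : Ideal (M.Ap A)} (h : IsSub L L' I) (i : ℤ) :
    IsSub (L.twist i) (L'.twist i) I := by
  obtain ⟨f, hp, hm, hn, hr, hiff⟩ := h
  refine ⟨⟨f.fp, f.fm, f.fn, f.comm_p, fun m => ?_⟩, hp, hm, hn, hr, fun m => (hiff m).trans ?_⟩
  · show f.fn ((↑(M.xU A ^ i) : M.Apm A) • L'.ρm m) =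
      (↑(M.xU A ^ i) : M.Apm A) • L.ρm (f.fm m)
    rw [map_smul, f.comm_m]
  · show L.ρm m ∈ LinearMap.range f.fn ↔
      (↑(M.xU A ^ i) : M.Apm A) • L.ρm m ∈ LinearMap.range f.fn
    exact ((LinearMap.range f.fn).smul_mem_iff' (M.xU A ^ i)).symm

theorem isSubm_twist {L L' : LineData M A} {J : Ideal (M.Am A)} (h : IsSubm L L' J) (i : ℤ) :
    IsSubm (L.twist i) (L'.twist i) J := by
  obtain ⟨f, hp, hm, hn, hr, hiff⟩ := h
  refine ⟨⟨f.fp, f.fm, f.fn, f.comm_p, fun m => ?_⟩, hp, hm, hn, hr, hiff⟩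
  show f.fn ((↑(M.xU A ^ i) : M.Apm A) • L'.ρm m) =
    (↑(M.xU A ^ i) : M.Apm A) • L.ρm (f.fm m)
  rw [map_smul, f.comm_m]

theorem acyclic_twist_cancel (L : LineData M A) (i : ℤ)
    (h : ((L.twist (-i)).twist i).Acyclic) : L.Acyclic := by
  intro n
  obtain ⟨v, hv⟩ := h n
  refine ⟨v, Eq.trans ?_ hv⟩
  show L.ρp v.1 - L.ρm v.2 = L.ρp v.1 -
    (↑(M.xU A ^ i) : M.Apm A) • ((↑(M.xU A ^ (-i)) : M.Apm A) • L.ρm v.2)
  rw [smul_smul, ← Units.val_mul, ← zpow_add, add_neg_cancel, zpow_zero, Units.val_one, one_smul]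

theorem exists_isSubm (L : LineData M A) {J : Ideal (M.Am A)} {r : ℕ}
    (h : IsDivDeg (M := M.swap) J r) : ∃ L', IsSubm L L' J := by
  obtain ⟨L', f, h1, h2, h3, h4, h5⟩ := exists_isSub (M := M.swap) L.swap h
  exact ⟨L'.swap, ⟨f.fm, f.fp, f.fn, f.comm_m, f.comm_p⟩, h2, h1, h3, h4, h5⟩

/-- A morphism into a subsheaf. -/
theorem exists_factor {L L₁ L₃ : LineData M A} (f : Hom L₁ L) (g : Hom L₃ L)
    (hp : Function.Injective f.fp) (hm : Function.Injective f.fm) (hn : Function.Injective f.fn)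
    (hgp : LinearMap.range g.fp ≤ LinearMap.range f.fp)
    (hgm : LinearMap.range g.fm ≤ LinearMap.range f.fm)
    (hgn : LinearMap.range g.fn ≤ LinearMap.range f.fn) :
    ∃ h : Hom L₃ L₁, (∀ m, f.fp (h.fp m) = g.fp m) ∧ (∀ m, f.fm (h.fm m) = g.fm m) ∧
      ∀ m, f.fn (h.fn m) = g.fn m := by
  set ep := LinearEquiv.ofInjective f.fp hp
  set em := LinearEquiv.ofInjective f.fm hm
  set en := LinearEquiv.ofInjective f.fn hn
  set hp' := ep.symm.toLinearMap ∘ₗ g.fp.codRestrict _ fun m => hgp ⟨m, rfl⟩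
  set hm' := em.symm.toLinearMap ∘ₗ g.fm.codRestrict _ fun m => hgm ⟨m, rfl⟩
  set hn' := en.symm.toLinearMap ∘ₗ g.fn.codRestrict _ fun m => hgn ⟨m, rfl⟩
  have e1 : ∀ m, f.fp (hp' m) = g.fp m := fun m =>
    congrArg Subtype.val (ep.apply_symm_apply ⟨g.fp m, hgp ⟨m, rfl⟩⟩)
  have e2 : ∀ m, f.fm (hm' m) = g.fm m := fun m =>
    congrArg Subtype.val (em.apply_symm_apply ⟨g.fm m, hgm ⟨m, rfl⟩⟩)
  have e3 : ∀ m, f.fn (hn' m) = g.fn m := fun m =>
    congrArg Subtype.val (en.apply_symm_apply ⟨g.fn m, hgn ⟨m, rfl⟩⟩)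
  exact ⟨⟨hp', hm', hn', fun m => hn (by rw [e3, f.comm_p, e1, g.comm_p]),
    fun m => hn (by rw [e3, f.comm_m, e2, g.comm_m])⟩, e1, e2, e3⟩

theorem equivalent_of_isSub_top {L L' : LineData M A} (h : IsSub L L' ⊤) :
    Equivalent L' L := by
  obtain ⟨f, hp, hm, hn, hr, hiff⟩ := h
  rw [Submodule.top_smul, LinearMap.range_eq_top] at hr
  have hns : Function.Surjective f.fn := fun n => by
    obtain ⟨i, a, ha⟩ := L.ρp_surj n
    obtain ⟨a', rfl⟩ := hr a
    refine ⟨(↑((M.xU A)⁻¹ ^ i) : M.Apm A) • L'.ρp a', ?_⟩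
    rw [map_smul, f.comm_p, ← ha, smul_smul, ← Units.val_pow_eq_pow_val, ← Units.val_mul, inv_pow,
      inv_mul_cancel, Units.val_one, one_smul]
  exact ⟨f, ⟨hp, hr⟩, ⟨hm, fun m => (hiff m).2 (hns _)⟩, hn, hns⟩

theorem equivalent_of_isSubm_top {L L' : LineData M A} (h : IsSubm L L' ⊤) :
    Equivalent L' L := by
  obtain ⟨f, h1, h2, h3⟩ := equivalent_of_isSub_top (M := M.swap) (toSwap_isSub h)
  exact ⟨(⟨f.fm, f.fp, f.fn, f.comm_m, f.comm_p⟩ : Hom L' L), h2, h1, h3⟩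

theorem finite_aeval_x (M : Model k) (A : Type u) [CommRing A] [Algebra k A] :
    (Polynomial.aeval ((1 : A) ⊗ₜ[k] M.x) : Polynomial A →ₐ[A] M.Ap A).toRingHom.Finite := by
  classical
  obtain ⟨b, hb⟩ := M.basis_p
  letI : Algebra (Polynomial A) (M.Ap A) :=
    (Polynomial.aeval ((1 : A) ⊗ₜ[k] M.x) : Polynomial A →ₐ[A] M.Ap A).toRingHom.toAlgebra
  show Module.Finite (Polynomial A) (M.Ap A)
  refine ⟨⟨Finset.univ.image fun i => (1 : A) ⊗ₜ[k] b i, eq_top_iff.2 fun z _ => ?_⟩⟩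
  induction z using TensorProduct.induction_on with
  | zero => exact Submodule.zero_mem _
  | add z z' h h' => exact Submodule.add_mem _ (h trivial) (h' trivial)
  | tmul a r =>
    obtain ⟨c, rfl⟩ := hb.2 r
    rw [TensorProduct.tmul_sum]
    refine Submodule.sum_mem _ fun i _ => ?_
    have e : a ⊗ₜ[k] (Polynomial.aeval M.x (c i) * b i) =
        (Polynomial.C a * (c i).map (algebraMap k A)) • ((1 : A) ⊗ₜ[k] b i) := by
      rw [Algebra.smul_def, RingHom.algebraMap_toAlgebra, AlgHom.toRingHom_eq_coe,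
        RingHom.coe_coe, map_mul, Polynomial.aeval_C, Polynomial.aeval_map_algebraMap,
        show ((1 : A) ⊗ₜ[k] M.x) = (Algebra.TensorProduct.includeRight : M.Rp →ₐ[k] M.Ap A) M.x
          from rfl, Polynomial.aeval_algHom_apply, Algebra.TensorProduct.algebraMap_apply]
      simp
    rw [e]
    exact Submodule.smul_mem _ _ (Submodule.subset_span (by simp))

section Field

variable {K : Type u} [Field K] [Algebra k K]

theorem swap_chi (L : LineData M K) : L.swap.chi = L.chi := by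
  have h0 : Module.finrank K L.swap.H0 = Module.finrank K L.H0 := by
    let i : L.swap.H0 →ₗ[K] L.H0 :=
      ((LinearEquiv.prodComm K L.Mm L.Mp).toLinearMap ∘ₗ L.swap.H0.subtype).codRestrict _
        fun v => by
          show L.ρp v.1.2 - L.ρm v.1.1 = 0
          rw [← neg_sub, neg_eq_zero]
          exact v.2
    refine (LinearEquiv.ofBijective i ⟨fun v w h => Subtype.ext
      ((LinearEquiv.prodComm K L.Mm L.Mp).injective (congrArg Subtype.val h :)),
      fun v => ⟨⟨(v.1.2, v.1.1), ?_⟩, rfl⟩⟩).finrank_eq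
    show L.ρm v.1.2 - L.ρp v.1.1 = 0
    rw [← neg_sub, neg_eq_zero]
    exact v.2
  have h1 : Module.finrank K L.swap.H1 = Module.finrank K L.H1 :=
    (Submodule.quotEquivOfEq _ _ (swap_range_diff L)).finrank_eq
  rw [LineData.chi, LineData.chi, h0, h1]

theorem isSubm_chi {L L' : LineData M K} {J : Ideal (M.Am K)} {r : ℕ}
    (hJ : IsDivDeg (M := M.swap) J r) (h : IsSubm L L' J) : L'.chi = L.chi - r := by
  rw [← swap_chi L, ← swap_chi L']
  exact isSub_chi hJ (toSwap_isSub h)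

variable [IsAlgClosed K]

theorem finite_quot_Ap {C : Ideal (M.Ap K)} (hC : C ≠ ⊥) : Module.Finite K (M.Ap K ⧸ C) :=
  haveI := (M.dedekind_p K).1
  finite_quot_of_ne_bot _ (finite_aeval_x M K) hC

theorem exists_isDivDeg {C : Ideal (M.Ap K)} (hC : C ≠ ⊥) : ∃ r, IsDivDeg C r := by
  haveI := finite_quot_Ap hC
  refine ⟨Module.finrank K (M.Ap K ⧸ C), inferInstance, inferInstance, fun p => ?_⟩
  rw [Module.rankAtStalk_eq_finrank_of_free]
  rfl

theorem eq_top_of_isDivDeg_zero {I : Ideal (M.Ap K)} (h : IsDivDeg I 0) : I = ⊤ := by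
  haveI := h.finite
  haveI : Subsingleton (M.Ap K ⧸ I) :=
    (Module.finrank_zero_iff (R := K)).1 (finrank_eq_of_isDivDeg h)
  exact Ideal.Quotient.subsingleton_iff.1 inferInstance

/-- A nonzero section cuts out an effective divisor. -/
theorem exists_divisor (L : LineData M K) (h : L.H0 ≠ ⊥) :
    ∃ (L₁ : LineData M K) (I : Ideal (M.Ap K)) (J : Ideal (M.Am K)) (r s : ℕ),
      IsDivDeg I r ∧ IsDivDeg (M := M.swap) J s ∧ IsSub L L₁ I ∧
        IsSubm L₁ (LineData.unit M K) J ∧ L.chi = 1 - (M.genus : ℤ) + r + s := by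
  haveI := (M.dedekind_p K).1
  haveI := (M.dedekind_m K).1
  obtain ⟨⟨a, b⟩, hab, hne⟩ := Submodule.exists_mem_ne_zero_of_ne_bot h
  have hρ : L.ρp a = L.ρm b := sub_eq_zero.1 hab
  have ha : a ≠ 0 := fun h0 => hne (Prod.ext h0 (L.ρm_inj (by rw [← hρ, h0, map_zero]; exact (map_zero L.ρm).symm)))
  have hb : b ≠ 0 := fun h0 => ha (L.ρp_inj (by rw [hρ, h0, map_zero, map_zero]))
  let g : Hom (LineData.unit M K) L :=
    { fp := LinearMap.toSpanSingleton _ _ a
      fm := LinearMap.toSpanSingleton _ _ b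
      fn := LinearMap.toSpanSingleton _ _ (L.ρp a)
      comm_p := fun r => (ρp_smul L r a).symm
      comm_m := fun r => by
        show M.imA K r • L.ρp a = L.ρm (r • b)
        rw [ρm_smul, hρ] }
  have hgp : Function.Injective g.fp := (injective_iff_map_eq_zero g.fp).2 fun r hr =>
    (smul_eq_zero_invertible (Q := L.Mp) hr).resolve_right ha
  have hgm : Function.Injective g.fm := (injective_iff_map_eq_zero g.fm).2 fun r hr =>
    (smul_eq_zero_invertible (Q := L.Mm) hr).resolve_right hb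
  have hgn : Function.Injective g.fn := (injective_iff_map_eq_zero g.fn).2 fun t ht => by
    obtain ⟨i, r, hr⟩ := LineData.exists_ipA_eq (M := M) (A := K) t
    have h0 : L.ρp (r • a) = L.ρp 0 := by
      rw [ρp_smul, ← hr, mul_smul, show t • L.ρp a = 0 from ht, smul_zero, map_zero]
    have hr0 : r = 0 := (smul_eq_zero_invertible (Q := L.Mp) (L.ρp_inj h0)).resolve_right ha
    rw [hr0, map_zero] at hr
    exact ((M.xU K).isUnit.pow i).mul_right_eq_zero.1 hr
  set I : Ideal (M.Ap K) := content a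
  obtain ⟨r, hI⟩ := exists_isDivDeg (M := M) (C := I) (content_ne_bot ha)
  obtain ⟨L₁, hL₁⟩ := exists_isSub L hI
  obtain ⟨f, hp, hm, hn, hfr, hiff⟩ := hL₁
  have hspan : LinearMap.range f.fp = Submodule.span _ {a} := hfr.trans (content_smul_top a)
  have hρr : L.ρp a ∈ LinearMap.range f.fn := by
    obtain ⟨a', ha'⟩ : a ∈ LinearMap.range f.fp := hspan ▸ Submodule.mem_span_singleton_self a
    exact ⟨L₁.ρp a', by rw [f.comm_p, ha']⟩
  obtain ⟨g₁, e1, e2, e3⟩ := exists_factor f g hp hm hn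
    (by
      rw [hspan]; rintro _ ⟨r, rfl⟩
      exact Submodule.smul_mem _ r (Submodule.mem_span_singleton_self a))
    (by
      rintro _ ⟨r, rfl⟩
      exact Submodule.smul_mem _ r ((hiff b).2 (hρ ▸ hρr)))
    (by
      rintro _ ⟨t, rfl⟩
      exact Submodule.smul_mem _ t hρr)
  have hsp : Function.Surjective g₁.fp := fun m => by
    have hm : f.fp m ∈ LinearMap.range f.fp := ⟨m, rfl⟩
    rw [hspan] at hm
    obtain ⟨r, hr⟩ := Submodule.mem_span_singleton.1 hm
    exact ⟨r, hp ((e1 r).trans hr)⟩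
  have hi1 : Function.Injective g₁.fm := fun x y h => hgm (by rw [← e2, ← e2, h])
  set b₁ : L₁.Mm := g₁.fm (1 : M.Am K)
  have hb₁ : b₁ ≠ 0 := fun h0 => one_ne_zero (α := M.Am K) (hi1 (h0.trans (map_zero g₁.fm).symm))
  set J : Ideal (M.Am K) := content b₁
  have hJ0 : J ≠ ⊥ := content_ne_bot hb₁
  obtain ⟨s, hJ⟩ := exists_isDivDeg (M := M.swap) (K := K) (C := J) hJ0
  have hsub : IsSubm L₁ (LineData.unit M K) J := by
    refine ⟨g₁, fun x y h => hgp (by rw [← e1, ← e1, h]), hi1,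
      fun x y h => hgn (by rw [← e3, ← e3, h]), ?_,
      fun m => ⟨fun ⟨r, hr⟩ => ⟨_, (g₁.comm_p r).trans (congrArg L₁.ρp hr)⟩, fun _ => hsp m⟩⟩
    show _ = content b₁ • (⊤ : Submodule (M.Am K) L₁.Mm)
    rw [content_smul_top]
    refine le_antisymm ?_ ((Submodule.span_singleton_le_iff_mem _ _).2 ⟨_, rfl⟩)
    rintro _ ⟨r, rfl⟩
    rw [show g₁.fm r = r • b₁ by rw [← map_smul, smul_eq_mul, mul_one]]
    exact Submodule.smul_mem _ r (Submodule.mem_span_singleton_self b₁)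
  have hsub₁ : IsSub L L₁ I := ⟨f, hp, hm, hn, hfr, hiff⟩
  refine ⟨L₁, I, J, r, s, hI, hJ, hsub₁, hsub, ?_⟩
  have c1 := isSub_chi hI hsub₁
  have c2 := isSubm_chi hJ hsub
  rw [chi_unit] at c2
  omega

end Field

end FLTAgent.Jac
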