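import Mathlib

/-! # Index of a linear map on an extension of its domain -/

set_option autoImplicit false
set_option linter.style.haveILetI false

namespace FLTAgent.Jac

open LinearMap (ker range)
open Submodule (mkQ)

variable {K : Type*} [Field K] {V V' U : Type*} [AddCommGroup V] [Module K V] [AddCommGroup V']
  [Module K V'] [AddCommGroup U] [Module K U]

/-- The index `dim ker - dim coker` grows by the codimension of the subspace. -/
theorem index_extend (f : V →ₗ[K] U) (j : V' →ₗ[K] V) (hj : Function.Injective j)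
    [Module.Finite K (V ⧸ range j)] [Module.Finite K (ker (f ∘ₗ j))]
    [Module.Finite K (U ⧸ range (f ∘ₗ j))] :
    (Module.finrank K (ker f) : ℤ) - Module.finrank K (U ⧸ range f) =
      Module.finrank K (ker (f ∘ₗ j)) - Module.finrank K (U ⧸ range (f ∘ₗ j)) +
        Module.finrank K (V ⧸ range j) := by
  set Φ : ker f →ₗ[K] V ⧸ range j := (range j).mkQ ∘ₗ (ker f).subtype
  -- the kernel of `Φ`
  let i : ker (f ∘ₗ j) →ₗ[K] ker f := (j ∘ₗ (ker (f ∘ₗ j)).subtype).codRestrict _ fun v => v.2
  have hi : Function.Injective i := fun a b h =>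
    Subtype.ext (hj (congrArg Subtype.val h))
  have hΦ : ker Φ = range i := by
    ext ⟨v, hv⟩
    simp only [Φ, LinearMap.mem_ker, LinearMap.comp_apply, Submodule.coe_subtype,
      Submodule.mkQ_apply, Submodule.Quotient.mk_eq_zero, LinearMap.mem_range]
    constructor
    · rintro ⟨w, rfl⟩
      exact ⟨⟨w, hv⟩, rfl⟩
    · rintro ⟨w, hw⟩
      exact ⟨w.1, congrArg Subtype.val hw⟩
  set Ψ : V ⧸ range j →ₗ[K] U ⧸ range (f ∘ₗ j) := (range j).mapQ _ f (by
    rintro _ ⟨w, rfl⟩
    exact ⟨w, rfl⟩)
  have hΨ : ker Ψ = range Φ := by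
    ext q
    obtain ⟨v, rfl⟩ := Submodule.Quotient.mk_surjective _ q
    simp only [Ψ, LinearMap.mem_ker, Submodule.mapQ_apply, Submodule.Quotient.mk_eq_zero,
      LinearMap.mem_range]
    constructor
    · rintro ⟨w, hw⟩
      refine ⟨⟨v - j w, ?_⟩, ?_⟩
      · show f (v - j w) = 0
        rw [map_sub, ← hw, LinearMap.comp_apply, sub_self]
      · simp [Φ]
    · rintro ⟨⟨w, hw⟩, he⟩
      obtain ⟨z, hz⟩ := (Submodule.Quotient.eq _).1 he
      refine ⟨-z, ?_⟩
      rw [map_neg, LinearMap.comp_apply, hz, map_sub, Submodule.coe_subtype,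
        show f w = 0 from hw]
      simp
  haveI : Module.Finite K (range i) := Module.Finite.range i
  haveI : Module.Finite K (ker Φ) := hΦ ▸ inferInstanceAs (Module.Finite K (range i))
  haveI : Module.Finite K (ker f ⧸ ker Φ) := Module.Finite.equiv Φ.quotKerEquivRange.symm
  haveI : Module.Finite K (ker f) := Module.Finite.of_submodule_quotient (ker Φ)
  set π : U ⧸ range (f ∘ₗ j) →ₗ[K] U ⧸ range f :=
    Submodule.factor (LinearMap.range_comp_le_range j f)
  have hπs : Function.Surjective π := Submodule.factor_surjective _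
  have hπ : ker π = range Ψ := by
    ext q
    obtain ⟨v, rfl⟩ := Submodule.Quotient.mk_surjective _ q
    rw [LinearMap.mem_ker, show π (Submodule.Quotient.mk v) = Submodule.Quotient.mk v from rfl,
      Submodule.Quotient.mk_eq_zero]
    constructor
    · rintro ⟨w, rfl⟩
      exact ⟨Submodule.Quotient.mk w, rfl⟩
    · rintro ⟨w, hw⟩
      obtain ⟨w, rfl⟩ := Submodule.Quotient.mk_surjective _ w
      obtain ⟨z, hz⟩ := (Submodule.Quotient.eq _).1 hw
      refine ⟨w - j z, ?_⟩
      rw [map_sub, ← LinearMap.comp_apply, hz]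
      abel
  have h1 := Φ.finrank_range_add_finrank_ker
  rw [hΦ, LinearMap.finrank_range_of_inj hi] at h1
  have h2 := Ψ.finrank_range_add_finrank_ker
  rw [hΨ] at h2
  have h3 := π.finrank_range_add_finrank_ker
  rw [hπ, LinearMap.range_eq_top.2 hπs, finrank_top] at h3
  omega

end FLTAgent.Jac
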