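import Mathlib

/-! # Invertible modules: content of an element, quotients by cofinite ideals -/

set_option autoImplicit false
set_option linter.style.haveILetI false
set_option linter.unusedSectionVars false

namespace FLTAgent.Jac

open TensorProduct

section

variable {R : Type*} [CommRing R] {Q : Type*} [AddCommGroup Q] [Module R Q]
  [Module.Invertible R Q]

theorem apply_smul_comm (φ : Module.Dual R Q) (m m' : Q) : φ m • m' = φ m' • m := by
  have h := congrArg (TensorProduct.lift ((LinearMap.lsmul R Q).comp φ))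
    (Module.Invertible.tmul_comm (R := R) (m₁ := m) (m₂ := m'))
  simpa using h

theorem exists_sum_apply_eq_one (R : Type*) [CommRing R] (Q : Type*) [AddCommGroup Q] [Module R Q]
    [Module.Invertible R Q] :
    ∃ S : Finset (Module.Dual R Q × Q), ∑ i ∈ S, i.1 i.2 = (1 : R) := by
  obtain ⟨S, hS⟩ := TensorProduct.exists_finset ((Module.Invertible.linearEquiv R Q).symm 1)
  refine ⟨S, ?_⟩
  simpa [LinearEquiv.symm_apply_eq, Module.Invertible.linearEquiv, eq_comm] using hS

/-- The content of an element: the ideal `C` with `R m = C Q`. -/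
def content (m : Q) : Ideal R := LinearMap.range (Module.Dual.eval R Q m)

theorem apply_mem_content (φ : Module.Dual R Q) (m : Q) : φ m ∈ content (R := R) m := ⟨φ, rfl⟩

theorem content_smul_top (m : Q) :
    content (R := R) m • (⊤ : Submodule R Q) = Submodule.span R {m} := by
  refine le_antisymm (Submodule.smul_le.2 ?_) ((Submodule.span_singleton_le_iff_mem _ _).2 ?_)
  · rintro _ ⟨φ, rfl⟩ n -
    show φ m • n ∈ _
    rw [apply_smul_comm]
    exact Submodule.smul_mem _ _ (Submodule.mem_span_singleton_self m)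
  · obtain ⟨S, hS⟩ := exists_sum_apply_eq_one R Q
    have h : ∑ i ∈ S, i.1 i.2 • m ∈ content (R := R) m • (⊤ : Submodule R Q) :=
      Submodule.sum_mem _ fun i _ => by
        rw [apply_smul_comm]
        exact Submodule.smul_mem_smul (apply_mem_content _ _) Submodule.mem_top
    rwa [← Finset.sum_smul, hS, one_smul] at h

theorem content_le_of_mem_smul {m : Q} {P : Ideal R} (h : m ∈ P • (⊤ : Submodule R Q)) :
    content (R := R) m ≤ P := by
  rintro _ ⟨φ, rfl⟩
  show φ m ∈ P
  refine Submodule.smul_induction_on h (fun r hr n _ => ?_) fun a b ha hb => ?_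
  · rw [map_smul, smul_eq_mul]
    exact P.mul_mem_right _ hr
  · rw [map_add]
    exact P.add_mem ha hb

theorem content_ne_bot {m : Q} (hm : m ≠ 0) : content (R := R) m ≠ ⊥ := fun h => hm <| by
  have h' := content_smul_top (R := R) m
  rw [h, Submodule.bot_smul, eq_comm, Submodule.span_singleton_eq_bot] at h'
  exact h'

theorem smul_eq_zero_invertible [IsDomain R] {r : R} {m : Q} (h : r • m = 0) : r = 0 ∨ m = 0 := by
  refine or_iff_not_imp_right.2 fun hm => ?_
  obtain ⟨c, hc, hc0⟩ := Submodule.exists_mem_ne_zero_of_ne_bot (content_ne_bot (R := R) hm)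
  obtain ⟨φ, rfl⟩ := hc
  have h' := congrArg φ h
  rw [map_smul, map_zero, smul_eq_mul] at h'
  exact (mul_eq_zero.1 h').resolve_right hc0

/-- An invertible module modulo a cofinite ideal. -/
theorem finrank_quot_smul (K : Type*) [Field K] [Algebra K R] [Module K Q] [IsScalarTower K R Q]
    (I : Ideal R) [Module.Finite K (R ⧸ I)] :
    Module.Finite K (Q ⧸ I • (⊤ : Submodule R Q)) ∧
      Module.finrank K (Q ⧸ I • (⊤ : Submodule R Q)) = Module.finrank K (R ⧸ I) := by
  haveI : IsArtinianRing (R ⧸ I) := IsArtinianRing.of_finite K _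
  haveI : Module.Free (R ⧸ I) ((R ⧸ I) ⊗[R] Q) := inferInstance
  obtain ⟨e⟩ := Module.Invertible.free_iff_linearEquiv.1 this
  let e' : (R ⧸ I) ≃ₗ[K] Q ⧸ I • (⊤ : Submodule R Q) :=
    ((e.restrictScalars R).symm ≪≫ₗ quotTensorEquivQuotSMul Q I).restrictScalars K
  exact ⟨Module.Finite.equiv e', e'.finrank_eq.symm⟩

/-- Only finitely many maximal ideals contain a cofinite ideal. -/
theorem finite_maximal_ge (K : Type*) [Field K] [Algebra K R] (C : Ideal R)
    [Module.Finite K (R ⧸ C)] : {P : Ideal R | P.IsMaximal ∧ C ≤ P}.Finite := by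
  haveI : IsArtinianRing (R ⧸ C) := IsArtinianRing.of_finite K _
  refine (Set.finite_range fun P : MaximalSpectrum (R ⧸ C) =>
    P.1.comap (Ideal.Quotient.mk C)).subset ?_
  rintro P ⟨hP, hC⟩
  haveI := hP
  have hc : (P.map (Ideal.Quotient.mk C)).comap (Ideal.Quotient.mk C) = P := by
    rw [Ideal.comap_map_of_surjective _ Ideal.Quotient.mk_surjective]
    simpa [← RingHom.ker_eq_comap_bot] using hC
  refine ⟨⟨P.map (Ideal.Quotient.mk C), ?_⟩, hc⟩
  refine (Ideal.map_eq_top_or_isMaximal_of_surjective _ Ideal.Quotient.mk_surjective hP).resolve_left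
    fun h => hP.ne_top ?_
  rw [← hc, h, Ideal.comap_top]

end

/-- Nonzero ideals of a domain finite over `K[X]` are cofinite. -/
theorem finite_quot_of_ne_bot {K : Type*} [Field K] {R : Type*} [CommRing R] [IsDomain R]
    [Algebra K R] (φ : Polynomial K →ₐ[K] R) (hφ : φ.toRingHom.Finite) {C : Ideal R}
    (hC : C ≠ ⊥) : Module.Finite K (R ⧸ C) := by
  classical
  obtain ⟨c, hc, hc0⟩ := Submodule.exists_mem_ne_zero_of_ne_bot hC
  obtain ⟨p, hpm, hp⟩ := hφ.to_isIntegral c
  have hne : C.comap φ.toRingHom ≠ ⊥ :=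
    Ideal.comap_ne_bot_of_root_mem hc0 hc hpm.ne_zero hp
  obtain ⟨q₀, hq₀, hq0⟩ := Submodule.exists_mem_ne_zero_of_ne_bot hne
  set q := normalize q₀
  have hq : φ q ∈ C := by
    obtain ⟨u, hu⟩ := normalize_associated q₀ |>.symm
    rw [← show q₀ * u = q from hu, map_mul]
    exact C.mul_mem_right _ hq₀
  haveI : Module.Finite K (AdjoinRoot q) := (Polynomial.monic_normalize hq0).finite_adjoinRoot
  let g : AdjoinRoot q →ₐ[K] R ⧸ C :=
    Ideal.Quotient.liftₐ (Ideal.span {q}) ((Ideal.Quotient.mkₐ K C).comp φ) fun a ha => by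
      obtain ⟨b, rfl⟩ := Ideal.mem_span_singleton'.1 ha
      exact Ideal.Quotient.eq_zero_iff_mem.2 (by rw [map_mul]; exact C.mul_mem_left _ hq)
  have hg : g.toRingHom.Finite := by
    refine RingHom.Finite.of_comp_finite (f := Ideal.Quotient.mk (Ideal.span {q})) ?_
    exact (RingHom.Finite.of_surjective _ Ideal.Quotient.mk_surjective).comp hφ
  have hK : (algebraMap K (AdjoinRoot q)).Finite := RingHom.finite_algebraMap.2 inferInstance
  have hR := hg.comp hK
  rw [show g.toRingHom.comp (algebraMap K (AdjoinRoot q)) = algebraMap K (R ⧸ C) from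
    g.comp_algebraMap] at hR
  exact RingHom.finite_algebraMap.1 hR

end FLTAgent.Jac
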