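import Fermat.Agent.Jac.Deg.Basic

/-! # Avoiding sections: the constant divisor of a chart -/

set_option autoImplicit false
set_option linter.style.haveILetI false
set_option linter.unusedSectionVars false
set_option linter.unusedSimpArgs false

universe u

open TensorProduct

namespace FLTAgent.Jac

open LineData

theorem algHom_eq_of_ker {K R : Type*} [Field K] [CommRing R] [Algebra K R] {σ τ : R →ₐ[K] K}
    (h : RingHom.ker σ = RingHom.ker τ) : σ = τ := by
  ext r
  have hr : r - algebraMap K R (σ r) ∈ RingHom.ker σ := by simp [RingHom.mem_ker]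
  rw [h, RingHom.mem_ker, map_sub, AlgHom.commutes, sub_eq_zero] at hr
  simpa using hr.symm

theorem finite_points_ge {K R : Type*} [Field K] [CommRing R] [Algebra K R] (C : Ideal R)
    [Module.Finite K (R ⧸ C)] : {σ : R →ₐ[K] K | C ≤ RingHom.ker σ}.Finite :=
  Set.Finite.of_injOn (t := {P : Ideal R | P.IsMaximal ∧ C ≤ P})
    (f := fun σ : R →ₐ[K] K => RingHom.ker σ)
    (fun σ hσ => ⟨RingHom.ker_isMaximal_of_surjective σ
      fun c => ⟨algebraMap K R c, σ.commutes c⟩, hσ⟩)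
    (fun _ _ _ _ h => algHom_eq_of_ker h) (finite_maximal_ge K C)

variable {k : Type u} [Field k] {M : Model k}

theorem finite_quot_sub (M : Model k) (a : k) :
    Module.Finite k (M.Rp ⧸ Ideal.span {M.x - algebraMap k M.Rp a}) := by
  classical
  obtain ⟨b, hb⟩ := M.basis_p
  set I := Ideal.span {M.x - algebraMap k M.Rp a}
  refine ⟨⟨Finset.univ.image fun i => Ideal.Quotient.mk I (b i), eq_top_iff.2 fun z _ => ?_⟩⟩
  obtain ⟨r, rfl⟩ := Ideal.Quotient.mk_surjective z
  obtain ⟨c, rfl⟩ := hb.2 r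
  rw [map_sum]
  refine Submodule.sum_mem _ fun i _ => ?_
  have e : Ideal.Quotient.mk I (Polynomial.aeval M.x (c i) * b i) =
      (c i).eval a • Ideal.Quotient.mk I (b i) := by
    rw [map_mul, Algebra.smul_def]
    congr 1
    obtain ⟨p, hp⟩ := Polynomial.X_sub_C_dvd_sub_C_eval (a := a) (p := c i)
    refine (Ideal.Quotient.eq.2 ?_ : Ideal.Quotient.mk I _ = Ideal.Quotient.mk I _)
    rw [← Polynomial.aeval_C M.x (R := k), ← map_sub, hp, map_mul, map_sub, Polynomial.aeval_X,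
      Polynomial.aeval_C]
    exact I.mul_mem_right _ (Ideal.subset_span rfl)
  rw [e]
  exact Submodule.smul_mem _ _ (Submodule.subset_span (by simp))

theorem nontrivial_Rp (M : Model k) : Nontrivial M.Rp := M.ip.toRingHom.domain_nontrivial

theorem infinite_points (M : Model k) [IsAlgClosed k] :
    (Set.univ : Set (M.Rp →ₐ[k] k)).Infinite := by
  classical
  haveI := nontrivial_Rp M
  obtain ⟨b, hb⟩ := M.basis_p
  obtain ⟨c, hc⟩ := hb.2 1
  obtain ⟨i₀, hi₀⟩ : ∃ i, c i ≠ 0 := by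
    by_contra! h
    simp [h] at hc
  intro hfin
  refine (((Polynomial.finite_setOfPred_isRoot hi₀).union
    (hfin.image fun σ : M.Rp →ₐ[k] k => σ M.x)).infinite_compl).nonempty.elim fun a ha => ?_
  simp only [Set.mem_compl_iff, Set.mem_union, not_or] at ha
  set I := Ideal.span {M.x - algebraMap k M.Rp a}
  have hI : I ≠ ⊤ := fun htop => by
    obtain ⟨f, hf⟩ := Ideal.mem_span_singleton'.1 (htop ▸ Submodule.mem_top : (1 : M.Rp) ∈ I)
    obtain ⟨e, rfl⟩ := hb.2 f
    have he : (fun i => (Polynomial.X - Polynomial.C a) * e i) = c := hb.1 <| by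
      show ∑ i, Polynomial.aeval M.x _ * b i = ∑ i, Polynomial.aeval M.x (c i) * b i
      rw [show ∑ i, Polynomial.aeval M.x (c i) * b i = 1 from hc, ← hf, Finset.sum_mul]
      refine Finset.sum_congr rfl fun i _ => ?_
      rw [map_mul, map_sub, Polynomial.aeval_X, Polynomial.aeval_C]
      ring
    exact ha.1 (show Polynomial.IsRoot (c i₀) a by simp [← he])
  obtain ⟨m, hm, hle⟩ := Ideal.exists_le_maximal I hI
  haveI := hm
  haveI := finite_quot_sub M a
  haveI : Module.Finite k (M.Rp ⧸ m) :=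
    Module.Finite.of_surjective (Ideal.Quotient.factorₐ k hle).toLinearMap
      (Ideal.Quotient.factor_surjective hle)
  haveI : IsDomain (M.Rp ⧸ m) := Ideal.Quotient.isDomain m
  have hbij := IsAlgClosed.algebraMap_bijective_of_isIntegral (k := k) (K := M.Rp ⧸ m)
  let e := AlgEquiv.ofBijective (Algebra.ofId k (M.Rp ⧸ m)) hbij
  refine ha.2 ⟨e.symm.toAlgHom.comp (Ideal.Quotient.mkₐ k m), trivial, e.injective ?_⟩
  show e (e.symm (Ideal.Quotient.mk m M.x)) = algebraMap k (M.Rp ⧸ m) a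
  rw [AlgEquiv.apply_symm_apply, ← Ideal.Quotient.mk_algebraMap, Ideal.Quotient.eq]
  exact hle (Ideal.subset_span rfl)

theorem finite_points_infinity (M : Model k) : {q : M.Rm →ₐ[k] k | q M.y = 0}.Finite := by
  haveI : Module.Finite k (M.Rm ⧸ Ideal.span {M.y - algebraMap k M.Rm 0}) :=
    finite_quot_sub M.swap 0
  refine (finite_points_ge (K := k) (Ideal.span {M.y - algebraMap k M.Rm 0})).subset fun q hq => ?_
  show Ideal.span _ ≤ _
  simp [Ideal.span_singleton_le_iff_mem, RingHom.mem_ker, show q M.y = 0 from hq]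

theorem finrank_quot_mul {K R : Type*} [Field K] [CommRing R] [Algebra K R] {I J : Ideal R}
    (h : IsCoprime I J) [Module.Finite K (R ⧸ I)] [Module.Finite K (R ⧸ J)] :
    Module.Finite K (R ⧸ I * J) ∧
      Module.finrank K (R ⧸ I * J) = Module.finrank K (R ⧸ I) + Module.finrank K (R ⧸ J) := by
  let e : (R ⧸ I * J) ≃ₐ[K] (R ⧸ I) × (R ⧸ J) :=
    AlgEquiv.ofRingEquiv (f := Ideal.quotientMulEquivQuotientProd I J h) fun c => rfl
  exact ⟨Module.Finite.equiv e.symm.toLinearEquiv,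
    e.toLinearEquiv.finrank_eq.trans Module.finrank_prod⟩

section Over

variable {K : Type u} [Field K] [Algebra k K]

theorem constIdeal_ker_le (σ : M.Rp →ₐ[k] k) :
    M.constIdeal K (RingHom.ker σ) ≤ RingHom.ker (M.ptP (Model.constPt σ K)) := by
  rw [Model.constIdeal, Ideal.map_le_iff_le_comap]
  intro r hr
  rw [RingHom.mem_ker] at hr
  simp [Ideal.mem_comap, RingHom.mem_ker, Model.ptP, Model.constPt, hr]

theorem finite_vanishing [IsAlgClosed K] (L : LineData M K) {a : L.Mp} (ha : a ≠ 0) :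
    {σ : M.Rp →ₐ[k] k |
      a ∈ M.constIdeal K (RingHom.ker σ) • (⊤ : Submodule (M.Ap K) L.Mp)}.Finite := by
  haveI := (M.dedekind_p K).1
  haveI := finite_quot_Ap (content_ne_bot (R := M.Ap K) ha)
  refine Set.Finite.of_injOn (f := fun σ => M.ptP (Model.constPt σ K)) (fun σ hσ => ?_)
    (fun σ _ τ _ h => ?_) (finite_points_ge (K := K) (content (R := M.Ap K) a))
  · exact (content_le_of_mem_smul hσ).trans (constIdeal_ker_le σ)
  · ext r
    have h' := DFunLike.congr_fun h ((1 : K) ⊗ₜ r)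
    simp [Model.ptP, Model.constPt] at h'
    exact h'

theorem isDivDeg_point (q : M.Rm →ₐ[k] k) :
    IsDivDeg (M := M.swap) (RingHom.ker (M.ptM (Model.constPt q K))) 1 :=
  isDivDeg_ker_ptP (M := M.swap) (A := K) (Model.constPt q K)

theorem fp_surjective_point {L L' : LineData M K} {q : M.Rm →ₐ[k] k} (hq : q M.y = 0)
    {f : Hom L' L}
    (hr : LinearMap.range f.fm = RingHom.ker (M.ptM (Model.constPt q K)) • ⊤)
    (hiff : ∀ m, m ∈ LinearMap.range f.fp ↔ L.ρp m ∈ LinearMap.range f.fn) :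
    Function.Surjective f.fp := by
  intro m
  refine (hiff m).2 ?_
  have hy : (1 : K) ⊗ₜ[k] M.y ∈ RingHom.ker (M.ptM (Model.constPt q K)) := by
    simp [RingHom.mem_ker, Model.ptM, Model.constPt, hq]
  have h := ipA_smul_mem_range_fn (M := M.swap) f.swap hr hy ((M.xU K : M.Apm K) • L.ρp m)
  change M.imA K _ • _ ∈ LinearMap.range f.fn at h
  rwa [imA_one_tmul_y, smul_smul, Units.inv_mul, one_smul] at h

theorem finrank_H1_eq_zero_iff (L : LineData M K) :
    Module.finrank K L.H1 = 0 ↔ L.Acyclic := by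
  haveI := finite_H1 L
  rw [Module.finrank_zero_iff, Submodule.Quotient.subsingleton_iff, LinearMap.range_eq_top]
  rfl

/-- All bundles `L(nD - J - q)`, `q` over infinity, are acyclic. -/
def GoodDiv (n : ℕ) (L : LineData M K) (J : Ideal M.Rp) : Prop :=
  ∀ q : M.Rm →ₐ[k] k, q M.y = 0 → ∀ L₁ L₂ : LineData M K,
    IsSub (L.twist n) L₁ (M.constIdeal K J) →
    IsSubm L₁ L₂ (RingHom.ker (M.ptM (Model.constPt q K))) → L₂.Acyclic

theorem chi_of_subs {n : ℕ} {L L₁ L₂ : LineData M K} {J : Ideal M.Rp}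
    [Module.Finite k (M.Rp ⧸ J)] {q : M.Rm →ₐ[k] k} (h₁ : IsSub (L.twist n) L₁ (M.constIdeal K J))
    (h₂ : IsSubm L₁ L₂ (RingHom.ker (M.ptM (Model.constPt q K)))) :
    L₂.chi = (L.twist n).chi - Module.finrank k (M.Rp ⧸ J) - 1 := by
  rw [isSubm_chi (isDivDeg_point q) h₂, isSub_chi (isDivDeg_constIdeal (A := K)) h₁]
  simp

theorem exists_good_step [IsAlgClosed k] [IsAlgClosed K] {n : ℕ} {L : LineData M K}
    {J : Ideal M.Rp} [Module.Finite k (M.Rp ⧸ J)]
    (hlt : (Module.finrank k (M.Rp ⧸ J) : ℤ) + 1 < (L.twist n).chi) (hJ : GoodDiv n L J) :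
    ∃ J' : Ideal M.Rp, Module.Finite k (M.Rp ⧸ J') ∧
      Module.finrank k (M.Rp ⧸ J') = Module.finrank k (M.Rp ⧸ J) + 1 ∧ GoodDiv n L J' := by
  classical
  obtain ⟨LJ, hLJ⟩ := exists_isSub (L.twist n) (isDivDeg_constIdeal (A := K) (J := J))
  have hLJ' := hLJ
  obtain ⟨f, fp_inj, fm_inj, fn_inj, f_range, f_iff⟩ := hLJ'
  haveI := (M.dedekind_p K).1
  haveI := (M.dedekind_m K).1
  choose Lq hLq using fun q : M.Rm →ₐ[k] k => exists_isSubm LJ (isDivDeg_point (K := K) q)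
  choose f2 f2_pinj f2_minj f2_ninj f2_range f2_iff using hLq
  have hsec : ∀ q : M.Rm →ₐ[k] k, ∃ v : (Lq q).H0, q M.y = 0 → (f2 q).fp v.1.1 ≠ 0 := by
    intro q
    by_cases hq : q M.y = 0
    · have hq2 : IsSubm LJ (Lq q) _ :=
        ⟨f2 q, f2_pinj q, f2_minj q, f2_ninj q, f2_range q, f2_iff q⟩
      have hc := chi_of_subs hLJ hq2
      haveI := finite_H0_of_field (Lq q)
      have hne : (Lq q).H0 ≠ ⊥ := fun h0 => by
        rw [LineData.chi, h0, finrank_bot] at hc
        omega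
      obtain ⟨v, hv, hv0⟩ := Submodule.exists_mem_ne_zero_of_ne_bot hne
      refine ⟨⟨v, hv⟩, fun _ h0 => hv0 ?_⟩
      have h1 : v.1 = 0 := f2_pinj q (h0.trans (map_zero _).symm)
      refine Prod.ext h1 ((Lq q).ρm_inj ?_)
      rw [← sub_eq_zero.1 (show (Lq q).ρp v.1 - (Lq q).ρm v.2 = 0 from hv), h1, map_zero]
      exact (map_zero (Lq q).ρm).symm
    · exact ⟨0, fun h => absurd h hq⟩
  choose v hv using hsec
  -- the new point
  obtain ⟨σ, -, hσ⟩ := ((infinite_points M).sdiff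
    (((finite_points_infinity M).biUnion fun q hq =>
      finite_vanishing LJ (hv q hq)).union (finite_points_ge (K := k) J))).nonempty
  simp only [Set.mem_union, Set.mem_iUnion, not_or, not_exists] at hσ
  obtain ⟨hσv, hσJ⟩ := hσ
  haveI hP : (RingHom.ker σ).IsMaximal :=
    RingHom.ker_isMaximal_of_surjective σ fun c => ⟨algebraMap k M.Rp c, σ.commutes c⟩
  have hcop : IsCoprime J (RingHom.ker σ) := by
    rw [Ideal.isCoprime_iff_sup_eq, sup_comm]
    exact hP.1.2 _ (lt_of_le_of_ne le_sup_left fun h => hσJ (le_sup_right.trans h.ge))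
  have e : (M.Rp ⧸ RingHom.ker σ) ≃ₗ[k] k :=
    (Ideal.quotientKerAlgEquivOfSurjective (f := σ)
      fun c => ⟨algebraMap k M.Rp c, σ.commutes c⟩).toLinearEquiv
  haveI : Module.Finite k (M.Rp ⧸ RingHom.ker σ) := Module.Finite.equiv e.symm
  obtain ⟨hfin, hrk⟩ := finrank_quot_mul (K := k) hcop
  rw [e.finrank_eq, Module.finrank_self] at hrk
  refine ⟨J * RingHom.ker σ, hfin, hrk, fun q hq L₁ L₂ h₁ h₂ => ?_⟩
  haveI := hfin
  have hc := chi_of_subs h₁ h₂
  rw [hrk] at hc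
  obtain ⟨g, gp_inj, gm_inj, gn_inj, g_range, g_iff⟩ := h₁
  obtain ⟨g2, g2_pinj, g2_minj, g2_ninj, g2_range, g2_iff⟩ := h₂
  have hprod : M.constIdeal K (J * RingHom.ker σ) =
      M.constIdeal K (RingHom.ker σ) * M.constIdeal K J :=
    (Ideal.map_mul _ J (RingHom.ker σ)).trans (mul_comm _ _)
  have hgp : LinearMap.range g.fp ≤ LinearMap.range f.fp := by
    rw [g_range, f_range, hprod]
    exact Submodule.smul_mono_left Ideal.mul_le_right
  have hgn : LinearMap.range g.fn ≤ LinearMap.range f.fn := by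
    rintro _ ⟨n', rfl⟩
    obtain ⟨i, a', ha'⟩ := L₁.ρp_surj n'
    obtain ⟨a, ha⟩ := hgp ⟨a', rfl⟩
    refine ((LinearMap.range f.fn).smul_mem_iff' (M.xU K ^ i)).1 ⟨LJ.ρp a, ?_⟩
    rw [f.comm_p, ha, ← g.comm_p, ← ha', map_smul]
    rfl
  obtain ⟨h, h_p, h_m, h_n⟩ := exists_factor f g fp_inj fm_inj fn_inj hgp
    (by
      rintro _ ⟨b, rfl⟩
      exact (f_iff _).2 (by rw [← g.comm_m]; exact hgn ⟨_, rfl⟩)) hgn
  have hP' : ∀ m, h.fp m ∈ M.constIdeal K (RingHom.ker σ) • (⊤ : Submodule (M.Ap K) LJ.Mp) := by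
    intro m
    have hm : g.fp m ∈ Submodule.map f.fp
        (M.constIdeal K (RingHom.ker σ) • (⊤ : Submodule (M.Ap K) LJ.Mp)) := by
      rw [Submodule.map_smul'', Submodule.map_top, f_range, ← Submodule.mul_smul, ← hprod,
        ← g_range]
      exact ⟨m, rfl⟩
    obtain ⟨t, ht, he⟩ := hm
    rwa [← fp_inj (he.trans (h_p m).symm)]
  -- sections
  have hi : ∀ v, h.fp (g2.fp v) = 0 → v = 0 := fun v hv => g2_pinj <| gp_inj <| by
    rw [← h_p, hv, map_zero, map_zero, map_zero]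
  have hj : ∀ v, h.fm (g2.fm v) = 0 → v = 0 := fun v hv => g2_minj <| gm_inj <| by
    rw [← h_m, hv, map_zero, map_zero, map_zero]
  set Φ' : L₂.H0 →ₗ[K] LJ.Mp × LJ.Mm :=
    ((h.fp ∘ₗ g2.fp).restrictScalars K).prodMap ((h.fm ∘ₗ g2.fm).restrictScalars K) ∘ₗ
      L₂.H0.subtype
  set Φ : (Lq q).H0 →ₗ[K] LJ.Mp × LJ.Mm :=
    ((f2 q).fp.restrictScalars K).prodMap ((f2 q).fm.restrictScalars K) ∘ₗ (Lq q).H0.subtype
  have hΦ' : Function.Injective Φ' := (injective_iff_map_eq_zero Φ').2 fun w hw =>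
    Subtype.ext (Prod.ext (hi _ (congrArg Prod.fst hw)) (hj _ (congrArg Prod.snd hw)))
  have hΦ : Function.Injective Φ := fun w w' hw =>
    Subtype.ext (Prod.ext (f2_pinj q (congrArg Prod.fst hw)) (f2_minj q (congrArg Prod.snd hw)))
  have hle : LinearMap.range Φ' ≤ LinearMap.range Φ := by
    rintro _ ⟨⟨⟨a, b⟩, hab⟩, rfl⟩
    obtain ⟨w1, hw1⟩ := fp_surjective_point hq (f2_range q) (f2_iff q) (h.fp (g2.fp a))
    obtain ⟨w2, hw2⟩ : h.fm (g2.fm b) ∈ LinearMap.range (f2 q).fm := by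
      rw [f2_range q]
      have hb : g2.fm b ∈ LinearMap.range g2.fm := ⟨b, rfl⟩
      rw [g2_range] at hb
      have := Submodule.mem_map_of_mem (f := h.fm) hb
      rw [Submodule.map_smul''] at this
      exact Submodule.smul_mono le_rfl le_top this
    refine ⟨⟨(w1, w2), f2_ninj q ?_⟩, Prod.ext hw1 hw2⟩
    show (f2 q).fn ((Lq q).ρp w1 - (Lq q).ρm w2) = (f2 q).fn 0
    rw [map_sub, (f2 q).comm_p, (f2 q).comm_m, hw1, hw2, ← h.comm_p, ← h.comm_m, ← g2.comm_p,
      ← g2.comm_m, ← map_sub, ← map_sub,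
      show L₂.ρp a - L₂.ρm b = 0 from hab, map_zero, map_zero, map_zero]
  have hlt' : LinearMap.range Φ' < LinearMap.range Φ := by
    refine lt_of_le_of_ne hle fun heq => hσv q hq ?_
    obtain ⟨w, hw⟩ : Φ (v q) ∈ LinearMap.range Φ' := heq ▸ LinearMap.mem_range_self Φ (v q)
    rw [Set.mem_ofPred_eq, show (f2 q).fp (v q).1.1 = h.fp (g2.fp w.1.1) from (congrArg Prod.fst hw).symm]
    exact hP' _
  have hq2 : IsSubm LJ (Lq q) (RingHom.ker (M.ptM (Model.constPt q K))) :=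
    ⟨f2 q, f2_pinj q, f2_minj q, f2_ninj q, f2_range q, f2_iff q⟩
  have hac := (finrank_H1_eq_zero_iff (Lq q)).2 (hJ q hq LJ (Lq q) hLJ hq2)
  have hcq := chi_of_subs hLJ hq2
  haveI := finite_H0_of_field (Lq q)
  haveI : Module.Finite K (LinearMap.range Φ) := Module.Finite.range Φ
  have hdim := Submodule.finrank_lt_finrank_of_lt hlt'
  rw [LinearMap.finrank_range_of_inj hΦ', LinearMap.finrank_range_of_inj hΦ] at hdim
  rw [← finrank_H1_eq_zero_iff]
  rw [LineData.chi] at hcq hc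
  omega

end Over

end FLTAgent.Jac
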