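import Fermat.Agent.Jac.Coh
import Fermat.Agent.Jac.Ops
import Fermat.Agent.Jac.Deg.Index
import Fermat.Agent.Jac.Deg.Inv

/-! # Subsheaves cut out by divisors: vanishing and Euler characteristic -/

set_option autoImplicit false
set_option linter.style.haveILetI false
set_option linter.unusedSectionVars false

universe u

open TensorProduct

namespace FLTAgent.Jac

open LineData

variable {k : Type u} [Field k] {M : Model k} {A : Type u} [CommRing A] [Algebra k A]

theorem ρp_smul (L : LineData M A) (r : M.Ap A) (a : L.Mp) :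
    L.ρp (r • a) = M.ipA A r • L.ρp a := map_smulₛₗ L.ρp r a

theorem ρm_smul (L : LineData M A) (r : M.Am A) (a : L.Mm) :
    L.ρm (r • a) = M.imA A r • L.ρm a := map_smulₛₗ L.ρm r a

theorem ipA_one_tmul_x : M.ipA A ((1 : A) ⊗ₜ M.x) = (M.xU A : M.Apm A) := by
  simp [Model.ipA, Model.xU]

theorem imA_one_tmul_y : M.imA A ((1 : A) ⊗ₜ M.y) = (↑(M.xU A)⁻¹ : M.Apm A) := by
  simp [Model.imA, Model.xU]

theorem exists_monic_aeval_mem {I : Ideal (M.Ap A)} (hI : Module.Finite A (M.Ap A ⧸ I)) :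
    ∃ p : Polynomial A, p.Monic ∧ Polynomial.aeval ((1 : A) ⊗ₜ[k] M.x) p ∈ I := by
  obtain ⟨p, hp, he⟩ := IsIntegral.of_finite A (Ideal.Quotient.mk I ((1 : A) ⊗ₜ[k] M.x))
  refine ⟨p, hp, Ideal.Quotient.eq_zero_iff_mem.1 ?_⟩
  rw [← Ideal.Quotient.mkₐ_eq_mk A, ← Polynomial.aeval_algHom_apply, Polynomial.aeval_def]
  simpa using he

/-- `L ↦ L.swap` on morphisms. -/
def LineData.Hom.swap {L' L : LineData M A} (f : Hom L' L) : Hom L'.swap L.swap where
  fp := f.fm
  fm := f.fp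
  fn := f.fn
  comm_p := f.comm_m
  comm_m := f.comm_p

theorem toSwap_isSub {L L' : LineData M A} {J : Ideal (M.Am A)} (h : IsSubm L L' J) :
    IsSub (M := M.swap) L.swap L'.swap J := by
  obtain ⟨f, h1, h2, h3, h4, h5⟩ := h
  exact ⟨f.swap, h2, h1, h3, h4, h5⟩

section Sub

variable {L L' : LineData M A} {I : Ideal (M.Ap A)} (f : Hom L' L)
  (hr : LinearMap.range f.fp = I • ⊤)
include hr

theorem ipA_smul_mem_range_fn {r : M.Ap A} (hrI : r ∈ I) (n : L.N) :
    M.ipA A r • n ∈ LinearMap.range f.fn := by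
  obtain ⟨i, a, ha⟩ := L.ρp_surj n
  have hra : L.ρp (r • a) ∈ LinearMap.range f.fn := by
    obtain ⟨a', ha'⟩ : r • a ∈ LinearMap.range f.fp := by
      rw [hr]; exact Submodule.smul_mem_smul hrI Submodule.mem_top
    exact ⟨L'.ρp a', by rw [f.comm_p, ha']⟩
  have e : M.ipA A r • n = (↑((M.xU A)⁻¹ ^ i) : M.Apm A) • L.ρp (r • a) := by
    rw [ρp_smul, ← ha, smul_smul, smul_smul]
    congr 1
    rw [mul_right_comm, ← Units.val_pow_eq_pow_val, ← Units.val_mul, inv_pow, inv_mul_cancel,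
      Units.val_one, one_mul]
  rw [e]
  exact Submodule.smul_mem _ _ hra

theorem exists_ρm_add_range_fn (hI : Module.Finite A (M.Ap A ⧸ I)) (n : L.N) :
    ∃ b : L.Mm, n - L.ρm b ∈ LinearMap.range f.fn := by
  obtain ⟨p, hp, hpI⟩ := exists_monic_aeval_mem hI
  set x : M.Apm A := (M.xU A : M.Apm A)
  set y : M.Apm A := (↑(M.xU A)⁻¹ : M.Apm A)
  have hP : ∀ n : L.N, Polynomial.aeval x p • n ∈ LinearMap.range f.fn := fun n => by
    have h := ipA_smul_mem_range_fn f hr hpI n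
    rwa [← Polynomial.aeval_algHom_apply, ipA_one_tmul_x] at h
  have hyx : y * x = 1 := by rw [← Units.val_mul, inv_mul_cancel, Units.val_one]
  -- one step
  have step : ∀ b : L.Mm, ∃ b' : L.Mm, x • L.ρm b - L.ρm b' ∈ LinearMap.range f.fn := by
    intro b
    rcases Nat.eq_zero_or_pos p.natDegree with h0 | h0
    · refine ⟨0, ?_⟩
      have h := hP (x • L.ρm b)
      rw [hp.natDegree_eq_zero.1 h0, map_one, one_smul] at h
      rwa [map_zero, sub_zero]
    · obtain ⟨D, hD⟩ := Nat.exists_eq_add_of_le' h0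
      set c : M.Am A := ∑ j ∈ Finset.range (D + 1),
        algebraMap A (M.Am A) (p.coeff j) * ((1 : A) ⊗ₜ M.y) ^ (D - j)
      refine ⟨-c • b, ?_⟩
      have e : y ^ D * Polynomial.aeval x p = x + M.imA A c := by
        rw [Polynomial.aeval_eq_sum_range, hD, Finset.sum_range_succ, mul_add, add_comm]
        congr 1
        · rw [← hD, hp.coeff_natDegree, one_smul, hD, pow_succ, ← mul_assoc, ← mul_pow, hyx,
            one_pow, one_mul]
        · rw [map_sum, Finset.mul_sum]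
          refine Finset.sum_congr rfl fun j hj => ?_
          obtain ⟨e, he⟩ := Nat.exists_eq_add_of_le (Nat.lt_succ_iff.1 (Finset.mem_range.1 hj))
          rw [map_mul, map_pow, AlgHom.commutes, imA_one_tmul_y, he, Nat.add_sub_cancel_left,
            Algebra.smul_def, pow_add, mul_left_comm]
          congr 1
          rw [mul_assoc, mul_comm (y ^ e), ← mul_assoc, ← mul_pow, hyx, one_pow, one_mul]
      have h := Submodule.smul_mem _ (y ^ D) (hP (L.ρm b))
      rw [smul_smul, e, add_smul, ← ρm_smul] at h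
      rwa [neg_smul, map_neg, sub_neg_eq_add]
  obtain ⟨i, b, hb⟩ := L.ρm_surj n
  suffices h : ∀ i, ∃ b' : L.Mm, x ^ i • L.ρm b - L.ρm b' ∈ LinearMap.range f.fn by
    obtain ⟨b', hb'⟩ := h i
    refine ⟨b', ?_⟩
    rwa [← hb, smul_smul, ← mul_pow, mul_comm x, hyx, one_pow, one_smul] at hb'
  intro i
  induction i with
  | zero => exact ⟨b, by simp⟩
  | succ i ih =>
    obtain ⟨b', hb'⟩ := ih
    obtain ⟨b'', hb''⟩ := step b'
    refine ⟨b'', ?_⟩
    have h := Submodule.add_mem _ (Submodule.smul_mem _ x hb') hb''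
    rwa [smul_sub, sub_add_sub_cancel, smul_smul, ← pow_succ'] at h

end Sub

theorem isSub_acyclic {L L' : LineData M A} {I : Ideal (M.Ap A)} {r : ℕ} (hI : IsDivDeg I r)
    (h : IsSub L L' I) (h' : L'.Acyclic) : L.Acyclic := by
  obtain ⟨f, -, -, -, hr, -⟩ := h
  intro n
  obtain ⟨b, n', hn'⟩ := exists_ρm_add_range_fn f hr hI.finite n
  obtain ⟨⟨a', b'⟩, hab⟩ := h' n'
  refine ⟨(f.fp a', f.fm b' - b), ?_⟩
  have e : f.fn n' = L.ρp (f.fp a') - L.ρm (f.fm b') := by
    rw [← hab, ← f.comm_p, ← f.comm_m, ← map_sub]; rfl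
  show L.ρp (f.fp a') - L.ρm (f.fm b' - b) = n
  rw [map_sub, ← sub_add, ← e, hn', sub_add_cancel]

section Field

variable {K : Type u} [Field K] [Algebra k K]

theorem finrank_eq_of_isDivDeg {I : Ideal (M.Ap K)} {r : ℕ} (hI : IsDivDeg I r) :
    Module.finrank K (M.Ap K ⧸ I) = r := by
  rw [← hI.rank ⟨⊥, Ideal.isPrime_bot⟩, Module.rankAtStalk_eq_finrank_of_free]
  rfl

theorem isSub_chi {L L' : LineData M K} {I : Ideal (M.Ap K)} {r : ℕ} (hI : IsDivDeg I r)
    (h : IsSub L L' I) : L'.chi = L.chi - r := by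
  obtain ⟨f, hp, hm, hn, hr, hiff⟩ := h
  haveI := hI.finite
  haveI : IsScalarTower K (M.Ap K) L.Mp := L.towMp
  obtain ⟨hfin, hrk⟩ := finrank_quot_smul (R := M.Ap K) (Q := L.Mp) K I
  rw [finrank_eq_of_isDivDeg hI] at hrk
  set fnK : L'.N →ₗ[K] L.N := f.fn.restrictScalars K
  set e := LinearEquiv.ofInjective fnK hn
  set W : Submodule K (L.Mp × L.Mm) := (LinearMap.range fnK).comap L.diff
  set θ : W →ₗ[K] L'.N :=
    e.symm.toLinearMap ∘ₗ (L.diff ∘ₗ W.subtype).codRestrict (LinearMap.range fnK) fun v => v.2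
  have hθ : ∀ v : W, fnK (θ v) = L.diff v := fun v =>
    congrArg Subtype.val (e.apply_symm_apply ⟨L.diff v, v.2⟩)
  set j₀ : L'.Mp × L'.Mm →ₗ[K] L.Mp × L.Mm :=
    (f.fp.restrictScalars K).prodMap (f.fm.restrictScalars K)
  have hdiff : ∀ v, L.diff (j₀ v) = fnK (L'.diff v) := fun v => by
    show L.ρp (f.fp v.1) - L.ρm (f.fm v.2) = f.fn (L'.ρp v.1 - L'.ρm v.2)
    rw [map_sub, f.comm_p, f.comm_m]
  set j : L'.Mp × L'.Mm →ₗ[K] W := j₀.codRestrict W fun v => ⟨L'.diff v, (hdiff v).symm⟩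
  have hj : Function.Injective j := fun v w e => by
    have e' := congrArg Subtype.val e
    exact Prod.ext (hp (congrArg Prod.fst e')) (hm (congrArg Prod.snd e'))
  have hθj : θ ∘ₗ j = L'.diff := LinearMap.ext fun v => hn ((hθ (j v)).trans (hdiff v))
  have hs := exists_ρm_add_range_fn f hr hI.finite
  -- `W` modulo the subsheaf
  set q : W →ₗ[K] L.Mp ⧸ I • (⊤ : Submodule (M.Ap K) L.Mp) :=
    ((I • (⊤ : Submodule (M.Ap K) L.Mp)).mkQ.restrictScalars K) ∘ₗ LinearMap.fst K L.Mp L.Mm ∘ₗ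
      W.subtype
  have hq : Function.Surjective q := fun t => by
    obtain ⟨a, rfl⟩ := Submodule.Quotient.mk_surjective _ t
    obtain ⟨b, hb⟩ := hs (L.ρp a)
    exact ⟨⟨(a, b), hb⟩, rfl⟩
  have hkq : LinearMap.ker q = LinearMap.range j := by
    ext ⟨⟨a, b⟩, hv⟩
    constructor
    · intro h0
      obtain ⟨a', rfl⟩ : a ∈ LinearMap.range f.fp := by
        rw [hr]; exact (Submodule.Quotient.mk_eq_zero _).1 h0
      obtain ⟨b', rfl⟩ : b ∈ LinearMap.range f.fm := by
        refine (hiff b).2 ?_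
        obtain ⟨n', hn'⟩ := hv
        refine ⟨L'.ρp a' - n', ?_⟩
        change f.fn n' = L.ρp (f.fp a') - L.ρm b at hn'
        rw [map_sub, f.comm_p, hn', sub_sub_cancel]
      exact ⟨(a', b'), rfl⟩
    · rintro ⟨v, hv⟩
      refine (Submodule.Quotient.mk_eq_zero _).2 ?_
      rw [← hr]
      exact ⟨v.1, congrArg (fun w : W => w.1.1) hv⟩
  let eq := (Submodule.quotEquivOfEq _ _ hkq.symm).trans (q.quotKerEquivOfSurjective hq)
  haveI : Module.Finite K (W ⧸ LinearMap.range j) := Module.Finite.equiv eq.symm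
  haveI : Module.Finite K (LinearMap.ker (θ ∘ₗ j)) := by
    rw [hθj]; exact finite_H0_of_field L'
  haveI : Module.Finite K (L'.N ⧸ LinearMap.range (θ ∘ₗ j)) := by
    rw [hθj]; exact finite_H1 L'
  have key := index_extend θ j hj
  rw [eq.finrank_eq, hrk, hθj] at key
  -- kernel and cokernel of `θ`
  have h0 : Module.finrank K (LinearMap.ker θ) = Module.finrank K L.H0 := by
    let i : LinearMap.ker θ →ₗ[K] L.H0 :=
      (W.subtype ∘ₗ (LinearMap.ker θ).subtype).codRestrict _ fun v => by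
        show L.diff v.1.1 = 0
        rw [← hθ, v.2, map_zero]
    refine (LinearEquiv.ofBijective i ⟨fun v w h => Subtype.ext (Subtype.ext
      (congrArg Subtype.val h :)), fun v => ?_⟩).finrank_eq
    have hvW : v.1 ∈ W := ⟨0, by rw [map_zero]; exact v.2.symm⟩
    refine ⟨⟨⟨v.1, hvW⟩, hn ?_⟩, rfl⟩
    exact ((hθ ⟨v.1, hvW⟩).trans v.2).trans (map_zero fnK).symm
  have h1 : Module.finrank K (L'.N ⧸ LinearMap.range θ) = Module.finrank K L.H1 := by
    let i : (L'.N ⧸ LinearMap.range θ) →ₗ[K] L.H1 :=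
      Submodule.mapQ _ _ fnK (by rintro _ ⟨v, rfl⟩; exact ⟨v, (hθ v).symm⟩)
    refine (LinearEquiv.ofBijective i ⟨?_, fun t => ?_⟩).finrank_eq
    · rw [injective_iff_map_eq_zero]
      intro t ht
      obtain ⟨n', rfl⟩ := Submodule.Quotient.mk_surjective _ t
      obtain ⟨v, hv⟩ := (Submodule.Quotient.mk_eq_zero _).1 ht
      refine (Submodule.Quotient.mk_eq_zero _).2 ⟨⟨v, n', hv.symm⟩, hn ?_⟩
      exact (hθ _).trans hv
    · obtain ⟨n, rfl⟩ := Submodule.Quotient.mk_surjective _ t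
      obtain ⟨b, n', hn'⟩ := hs n
      refine ⟨Submodule.Quotient.mk n', (Submodule.Quotient.eq _).2 ⟨(0, b), ?_⟩⟩
      show L.ρp 0 - L.ρm b = f.fn n' - n
      rw [hn', map_zero, zero_sub]
      abel
  rw [LineData.chi, LineData.chi, ← h0, ← h1]
  simp only [LineData.H0, LineData.H1]
  omega

end Field

end FLTAgent.Jac
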